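import Fermat.Agent.Poincare.LevelOne
import Fermat.Agent.HeckeConverse.LevelOne

/-!
# The completed L-series of a cusp form of level one

`Λ(f, s) = ∫_0^∞ f(i t) t^(s-1) dt` converges everywhere, equals `(2π)^(-s) Γ(s) L(f, s)` on a
half plane, satisfies `Λ(f, k - s) = i^k Λ(f, s)`, is linear in `f`, and is the integral over
`t > 1` of `f(i t) (t^(s-1) + i^k t^(k-s-1))`.
-/

set_option autoImplicit false

noncomputable section

namespace FA.KohnenNonvanishing

open UpperHalfPlane hiding I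
open Complex CongruenceSubgroup MeasureTheory Set
open FA.HeckeConverse
open scoped MatrixGroups Real

variable {k : ℕ}

/-- The form as a modular form for `SL(2, ℤ)`. -/
def asModular (f : CuspForm (Gamma0 1) (k : ℤ)) : ModularForm 𝒮ℒ (k : ℤ) where
  toFun := CuspForm.mcast rfl f EisCong.gamma0_one_coe.symm
  slash_action_eq' := (CuspForm.mcast rfl f EisCong.gamma0_one_coe.symm).slash_action_eq'
  holo' := (CuspForm.mcast rfl f EisCong.gamma0_one_coe.symm).holo'
  bdd_at_cusps' := fun hc γ hγ =>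
    ((CuspForm.mcast rfl f EisCong.gamma0_one_coe.symm).zero_at_cusps' hc γ hγ).boundedAtFilter

theorem exists_growth (hk : 0 < k) (f : CuspForm (Gamma0 1) (k : ℤ)) :
    ∃ K, Growth (EisCong.qL (k : ℤ) f) K k :=
  growth_coeff hk (asModular f)

theorem transforms (hk : 0 < k) (f : CuspForm (Gamma0 1) (k : ℤ)) :
    Transforms 1 k (I ^ k) (EisCong.qL (k : ℤ) f) (EisCong.qL (k : ℤ) f) :=
  transforms_coeff hk (asModular f)

/-- `f(i t)`. -/
def axisVal (f : CuspForm (Gamma0 1) (k : ℤ)) (t : ℝ) : ℂ := qSum 1 (EisCong.qL (k : ℤ) f) (I * t)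

theorem axisVal_eq (hk : 0 < k) (f : CuspForm (Gamma0 1) (k : ℤ)) {t : ℝ} (ht : 0 < t) :
    axisVal f t = f (ofComplex (I * t)) := by
  obtain ⟨K, hK⟩ := exists_growth hk f
  have him : 0 < (I * (t : ℂ)).im := by simpa using ht
  rw [ofComplex_apply_of_im_pos him]
  exact (hasSum_qSum hK one_pos him).unique (by
    simpa [EisCong.qL_apply, ModularFormClass.qCoeff] using! ModularForm.hasSum_qExpansion
      (f := asModular f) one_pos one_mem_strictPeriods_SL ⟨I * t, him⟩)

/-- The completed L-series. -/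
def centralLambda (f : CuspForm (Gamma0 1) (k : ℤ)) (s : ℂ) : ℂ := mellin (axisVal f) s

theorem exists_fePair (hk : 0 < k) (f : CuspForm (Gamma0 1) (k : ℤ)) :
    ∃ P : WeakFEPair ℂ, IsStrongFEPair P ∧ P.f = axisVal f ∧ P.g = axisVal f ∧
      P.k = (k : ℝ) ∧ P.ε = I ^ k := by
  obtain ⟨K, hK⟩ := exists_growth hk f
  exact ⟨fePair one_pos (by exact_mod_cast hk) (pow_ne_zero _ I_ne_zero) hK hK (transforms hk f),
    ⟨EisCong.qL_zero f, EisCong.qL_zero f⟩, rfl, rfl, rfl, rfl⟩

theorem mellinConvergent_axisVal (hk : 0 < k) (f : CuspForm (Gamma0 1) (k : ℤ)) (s : ℂ) :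
    MellinConvergent (axisVal f) s := by
  obtain ⟨P, hP, hf, -⟩ := exists_fePair hk f
  exact hf ▸ (hP.hasMellin s).1

theorem differentiable_centralLambda (hk : 0 < k) (f : CuspForm (Gamma0 1) (k : ℤ)) :
    Differentiable ℂ (centralLambda f) := by
  obtain ⟨P, hP, hf, -⟩ := exists_fePair hk f
  have h := hP.differentiable_Λ
  rwa [hP.Λ_eq, hf] at h

theorem centralLambda_sub (hk : 0 < k) (f : CuspForm (Gamma0 1) (k : ℤ)) (s : ℂ) :
    centralLambda f (k - s) = I ^ k * centralLambda f s := by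
  obtain ⟨P, hP, hf, hg, hPk, hε⟩ := exists_fePair hk f
  have h := P.functional_equation s
  rw [hP.Λ_eq, hP.symm_Λ_eq, hf, hg, hPk, hε] at h
  simpa [centralLambda] using h

theorem centralLambda_eq_LSeries (hk : 0 < k) (f : CuspForm (Gamma0 1) (k : ℤ)) {s : ℂ}
    (hs : (k : ℝ) + 1 < s.re) :
    centralLambda f s = ((2 * π : ℝ) : ℂ) ^ (-s) * Complex.Gamma s *
      LSeries (EisCong.qL (k : ℤ) f) s := by
  obtain ⟨K, hK⟩ := exists_growth hk f
  have h := mellin_axis hK one_pos hs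
  rw [completed, div_one] at h
  rw [← h]
  exact congrArg (fun g : ℝ → ℂ => mellin g s)
    (funext fun t => by simp [axisVal, axis, EisCong.qL_zero])

theorem axisVal_add (hk : 0 < k) (f g : CuspForm (Gamma0 1) (k : ℤ)) {t : ℝ} (ht : 0 < t) :
    axisVal (f + g) t = axisVal f t + axisVal g t := by
  simp [axisVal_eq hk _ ht]

/-- `f ↦ Λ(f, s)`. -/
def lambdaLin (hk : 0 < k) (s : ℂ) : CuspForm (Gamma0 1) (k : ℤ) →ₗ[ℂ] ℂ where
  toFun f := centralLambda f s
  map_add' f g := by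
    have h := (hasMellin_add (mellinConvergent_axisVal hk f s)
      (mellinConvergent_axisVal hk g s)).2
    rw [centralLambda, centralLambda, centralLambda, ← h]
    exact setIntegral_congr_fun measurableSet_Ioi fun t ht => by
      simp only [axisVal_add hk f g ht]
  map_smul' c f := by
    rw [RingHom.id_apply, centralLambda, centralLambda, ← mellin_const_smul]
    exact setIntegral_congr_fun measurableSet_Ioi fun t ht => by
      simp [axisVal_eq hk _ (show (0 : ℝ) < t from ht)]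

theorem lambdaLin_apply (hk : 0 < k) (s : ℂ) (f : CuspForm (Gamma0 1) (k : ℤ)) :
    lambdaLin hk s f = centralLambda f s := rfl

theorem axisVal_inv (hk : 0 < k) (f : CuspForm (Gamma0 1) (k : ℤ)) {t : ℝ} (ht : 0 < t) :
    axisVal f t⁻¹ = I ^ k * (t : ℂ) ^ k * axisVal f t := by
  have h := (transforms hk f).on_axis ht
  rw [one_div, Real.rpow_natCast, Complex.ofReal_pow] at h
  simpa [axisVal] using h

theorem centralLambda_eq_split (hk : 0 < k) (f : CuspForm (Gamma0 1) (k : ℤ)) (s : ℂ) :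
    IntegrableOn (fun t : ℝ => axisVal f t * (t : ℂ) ^ (s - 1)) (Ioi 1) ∧
    centralLambda f s = (∫ t in Ioi (1 : ℝ), axisVal f t * (t : ℂ) ^ (s - 1)) +
      I ^ k * ∫ t in Ioi (1 : ℝ), axisVal f t * (t : ℂ) ^ ((k : ℂ) - s - 1) := by
  classical
  have hint : ∀ w : ℂ, IntegrableOn (fun t : ℝ => axisVal f t * (t : ℂ) ^ (w - 1)) (Ioi 0) :=
    fun w => by simpa [MellinConvergent, mul_comm] using mellinConvergent_axisVal hk f w
  refine ⟨(hint s).mono_set (Ioi_subset_Ioi zero_le_one), ?_⟩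
  have h0 : centralLambda f s = ∫ t in Ioi (0 : ℝ), axisVal f t * (t : ℂ) ^ (s - 1) := by
    simp only [centralLambda, mellin, smul_eq_mul, mul_comm]
  have hsplit : (∫ t in Ioi (0 : ℝ), axisVal f t * (t : ℂ) ^ (s - 1)) =
      (∫ t in Ioc (0 : ℝ) 1, axisVal f t * (t : ℂ) ^ (s - 1)) +
        ∫ t in Ioi (1 : ℝ), axisVal f t * (t : ℂ) ^ (s - 1) := by
    rw [← setIntegral_union (Ioc_disjoint_Ioi le_rfl) measurableSet_Ioi
      ((hint s).mono_set Ioc_subset_Ioi_self) ((hint s).mono_set (Ioi_subset_Ioi zero_le_one)),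
      Ioc_union_Ioi_eq_Ioi zero_le_one]
  have hlow : (∫ t in Ioc (0 : ℝ) 1, axisVal f t * (t : ℂ) ^ (s - 1)) =
      I ^ k * ∫ t in Ioi (1 : ℝ), axisVal f t * (t : ℂ) ^ ((k : ℂ) - s - 1) := by
    have h := mellin_comp_inv ((Ioc (0 : ℝ) 1).indicator (axisVal f)) (-s)
    rw [neg_neg] at h
    have hL : mellin ((Ioc (0 : ℝ) 1).indicator (axisVal f)) s =
        ∫ t in Ioc (0 : ℝ) 1, axisVal f t * (t : ℂ) ^ (s - 1) := by
      rw [mellin, ← setIntegral_congr_fun measurableSet_Ioi (f :=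
        (Ioc (0 : ℝ) 1).indicator fun t => axisVal f t * (t : ℂ) ^ (s - 1)) (fun t _ => by
          by_cases h' : t ∈ Ioc (0 : ℝ) 1 <;> simp [h', mul_comm]),
        setIntegral_indicator measurableSet_Ioc, inter_eq_right.2 Ioc_subset_Ioi_self]
    have hR : mellin (fun t => (Ioc (0 : ℝ) 1).indicator (axisVal f) t⁻¹) (-s) =
        ∫ t in Ici (1 : ℝ), I ^ k * (axisVal f t * (t : ℂ) ^ ((k : ℂ) - s - 1)) := by
      rw [mellin, ← setIntegral_congr_fun measurableSet_Ioi (f :=
        (Ici (1 : ℝ)).indicator fun t => I ^ k * (axisVal f t * (t : ℂ) ^ ((k : ℂ) - s - 1)))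
        (fun t ht => ?_), setIntegral_indicator measurableSet_Ici,
        inter_eq_right.2 (Ici_subset_Ioi.2 zero_lt_one)]
      have ht0 : (0 : ℝ) < t := ht
      have hiff : t⁻¹ ∈ Ioc (0 : ℝ) 1 ↔ t ∈ Ici (1 : ℝ) := by
        simp [ht0, inv_le_one₀ ht0]
      simp only [Set.indicator_apply, hiff]
      split_ifs with h'
      · rw [axisVal_inv hk f ht0, smul_eq_mul,
          show (k : ℂ) - s - 1 = (-s - 1) + ((k : ℕ) : ℂ) by ring,
          cpow_add _ _ (ofReal_ne_zero.2 ht0.ne'), cpow_natCast]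
        ring
      · simp
    rw [← hL, ← h, hR, integral_Ici_eq_integral_Ioi, integral_const_mul]
  rw [h0, hsplit, hlow]
  ring

end FA.KohnenNonvanishing

end
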