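import Fermat.Agent.VerticalSatoTate.Semicircle
import Mathlib.LinearAlgebra.Matrix.NonsingularInverse
import Mathlib.LinearAlgebra.Matrix.ToLinearEquiv
import Mathlib.Algebra.Polynomial.BigOperators

/-!
# The twisted semicircle moments

For `0 < r < 1` the numbers `∑ moment(n, l) r^l` are the moments of the semicircle law times
`1 / (1 - r t + r²)`, so their Hankel determinants are not zero.
-/

set_option autoImplicit false

noncomputable section

namespace FA.KohnenNonvanishing

open VerticalSatoTate Filter MeasureTheory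
open scoped Topology

theorem moment_eq_zero_of_lt : ∀ {n l : ℕ}, n < l → moment n l = 0 := by
  intro n
  induction n with
  | zero => exact fun {l} hl => by rw [moment_zero, if_neg (by omega)]
  | succ n ih =>
    intro l hl
    rw [moment_succ, ih (by omega), if_neg (by omega), ih (by omega), add_zero]

theorem abs_moment_le (n l : ℕ) : |moment n l| ≤ 2 * 2 ^ n := by
  unfold moment
  rw [abs_mul, abs_of_pos (by positivity : (0 : ℝ) < 2 / Real.pi)]
  have h := intervalIntegral.norm_integral_le_of_norm_le_const (a := (0 : ℝ)) (b := Real.pi)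
    (C := 2 ^ n) (f := fun θ => (2 * Real.cos θ) ^ n * Real.sin ((l + 1) * θ) * Real.sin θ)
    fun θ _ => by
      rw [norm_mul, norm_mul, norm_pow]
      refine mul_le_of_le_one_right (by positivity) (Real.abs_sin_le_one θ) |>.trans ?_
      refine mul_le_of_le_one_right (by positivity) (Real.abs_sin_le_one _) |>.trans ?_
      refine pow_le_pow_left₀ (norm_nonneg _) ?_ n
      rw [norm_mul, Real.norm_two]
      exact mul_le_of_le_one_right zero_le_two (Real.abs_cos_le_one θ)
  rw [Real.norm_eq_abs, sub_zero, abs_of_pos Real.pi_pos] at h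
  refine (mul_le_mul_of_nonneg_left h (by positivity)).trans_eq ?_
  field_simp

/-- `∑ moment(n, l) r^l`. -/
def twistMoment (r : ℝ) (n : ℕ) : ℝ := ∑ l ∈ Finset.range (n + 1), moment n l * r ^ l

theorem twistMoment_succ (r : ℝ) (n : ℕ) :
    r * twistMoment r (n + 1) = (r ^ 2 + 1) * twistMoment r n - moment n 0 := by
  set M := twistMoment r n with hM
  have h1 : r * ∑ l ∈ Finset.range (n + 2), moment n (l + 1) * r ^ l = M - moment n 0 := by
    rw [Finset.mul_sum, Finset.sum_range_succ, moment_eq_zero_of_lt (by omega : n < n + 1 + 1),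
      zero_mul, mul_zero, add_zero, Finset.sum_range_succ,
      moment_eq_zero_of_lt (by omega : n < n + 1), zero_mul, mul_zero, add_zero, hM, twistMoment,
      Finset.sum_range_succ' _ n, pow_zero, mul_one, add_sub_cancel_right]
    exact Finset.sum_congr rfl fun l _ => by ring
  have h2 : r * ∑ l ∈ Finset.range (n + 2), (if l = 0 then 0 else moment n (l - 1)) * r ^ l =
      r ^ 2 * M := by
    rw [Finset.sum_range_succ' _ (n + 1), hM, twistMoment, Finset.mul_sum]
    simp only [if_neg (Nat.succ_ne_zero _), Nat.add_sub_cancel, ↓reduceIte, zero_mul, add_zero]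
    rw [Finset.mul_sum]
    exact Finset.sum_congr rfl fun l _ => by ring
  unfold twistMoment
  simp only [moment_succ, add_mul, Finset.sum_add_distrib, mul_add]
  rw [h1, h2]
  ring

/-- `1 / (1 - r t + r²)` on `[-2, 2]`, continued. -/
def twistDensity (r t : ℝ) : ℝ := (max (1 + r ^ 2 - r * t) ((1 - r) ^ 2))⁻¹

theorem twistDensity_pos {r : ℝ} (hr : r < 1) (t : ℝ) : 0 < twistDensity r t := by
  have : 0 < (1 - r) ^ 2 := pow_pos (by linarith) 2
  exact inv_pos.2 (lt_max_of_lt_right this)

theorem continuous_twistDensity {r : ℝ} (hr : r < 1) : Continuous (twistDensity r) :=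
  ((continuous_const.sub (continuous_const.mul continuous_id)).max continuous_const).inv₀
    fun t => (inv_pos.1 (twistDensity_pos hr t)).ne'

theorem twistDensity_mul {r t : ℝ} (hr0 : 0 ≤ r) (hr : r < 1) (ht : t ≤ 2) :
    (1 + r ^ 2 - r * t) * twistDensity r t = 1 := by
  have h : (1 - r) ^ 2 ≤ 1 + r ^ 2 - r * t := by nlinarith
  have h0 : 0 < (1 - r) ^ 2 := pow_pos (by linarith) 2
  rw [twistDensity, max_eq_left h, mul_inv_cancel₀ (h0.trans_le h).ne']

theorem semiMean_congr {φ ψ : ℝ → ℝ} (h : ∀ t ∈ Set.Icc (-2 : ℝ) 2, φ t = ψ t) :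
    semiMean φ = semiMean ψ := by
  rw [semiMean, semiMean]
  congr 1
  refine intervalIntegral.integral_congr fun t ht => ?_
  rw [Set.uIcc_of_le (by norm_num)] at ht
  simp only [h t ht]

theorem semiMean_sub {φ ψ : ℝ → ℝ} (hφ : Continuous φ) (hψ : Continuous ψ) :
    semiMean (fun t => φ t - ψ t) = semiMean φ - semiMean ψ := by
  simp only [semiMean, sub_mul]
  rw [intervalIntegral.integral_sub (intervalIntegrable_semi hφ) (intervalIntegrable_semi hψ),
    mul_sub]

theorem semiMean_const_mul (c : ℝ) (φ : ℝ → ℝ) :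
    semiMean (fun t => c * φ t) = c * semiMean φ := by
  simp only [semiMean, mul_assoc c, intervalIntegral.integral_const_mul]
  ring

/-- The twisted moments. -/
theorem twistMoment_eq {r : ℝ} (hr0 : 0 < r) (hr : r < 1) (n : ℕ) :
    twistMoment r n = semiMean fun t => t ^ n * twistDensity r t := by
  have hd := continuous_twistDensity hr
  set G : ℕ → ℝ := fun n => semiMean fun t => t ^ n * twistDensity r t with hG
  have hrec : ∀ n, r * G (n + 1) = (r ^ 2 + 1) * G n - moment n 0 := by
    intro n
    rw [← semiMean_pow, hG, ← semiMean_const_mul, ← semiMean_const_mul,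
      ← semiMean_sub (by fun_prop) (by fun_prop)]
    refine semiMean_congr fun t ht => ?_
    linear_combination -t ^ n * twistDensity_mul hr0.le hr ht.2
  set R : ℝ := (r ^ 2 + 1) / r with hR
  have hD : ∀ n, twistMoment r n - G n = R ^ n * (twistMoment r 0 - G 0) := by
    intro n
    induction n with
    | zero => simp
    | succ n ih =>
      have e1 := twistMoment_succ r n
      have e2 := hrec n
      rw [pow_succ, mul_right_comm, ← ih, hR]
      field_simp
      linear_combination e1 - e2
  set B : ℝ := ((1 - r) ^ 2)⁻¹ with hB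
  have hB0 : 0 ≤ B := by positivity
  have hbound : ∀ n, |twistMoment r n - G n| ≤ ((n : ℝ) + 1) * ((2 + B) * 2 ^ n) := by
    intro n
    have h1 : |twistMoment r n| ≤ ((n : ℝ) + 1) * (2 * 2 ^ n) := by
      refine (Finset.abs_sum_le_sum_abs _ _).trans ((Finset.sum_le_card_nsmul _ _ (2 * 2 ^ n)
        fun l _ => ?_).trans (by simp [nsmul_eq_mul]))
      rw [abs_mul, abs_pow, abs_of_pos hr0]
      exact (mul_le_of_le_one_right (abs_nonneg _) (pow_le_one₀ hr0.le hr.le)).trans
        (abs_moment_le n l)
    have h2 : |G n| ≤ ((n : ℝ) + 1) * (B * 2 ^ n) := by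
      refine le_trans ?_ (le_mul_of_one_le_left (by positivity)
        (le_add_of_nonneg_left (Nat.cast_nonneg n)))
      have h0 := semiMean_const 0
      have h := abs_semiMean_sub_le (φ := fun t => t ^ n * twistDensity r t) (ψ := fun _ => 0)
        (ε := B * 2 ^ n) (by fun_prop) continuous_const fun t ht => by
        rw [sub_zero, abs_mul, abs_pow, mul_comm B, abs_of_pos (twistDensity_pos hr t)]
        refine mul_le_mul (pow_le_pow_left₀ (abs_nonneg t) (abs_le.2 ht) n) ?_
          (twistDensity_pos hr t).le (by positivity)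
        exact inv_anti₀ (pow_pos (by linarith) 2) (le_max_right _ _)
      rwa [h0, sub_zero] at h
    calc |twistMoment r n - G n| ≤ |twistMoment r n| + |G n| := abs_sub _ _
      _ ≤ _ := (add_le_add h1 h2).trans_eq (by ring)
  have hR2 : 2 < R := by
    rw [hR, lt_div_iff₀ hr0]
    nlinarith [pow_pos (sub_pos.2 hr) 2]
  clear_value R
  have hlim : Tendsto (fun n : ℕ => (2 + B) * (((n : ℝ) + 1) * (2 / R) ^ n)) atTop (𝓝 0) := by
    have hlt : ‖2 / R‖ < 1 := by
      rw [Real.norm_of_nonneg (by positivity), div_lt_one (by linarith)]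
      exact hR2
    have h := ((tendsto_self_mul_const_pow_of_abs_lt_one (r := 2 / R) hlt).add
      (tendsto_pow_atTop_nhds_zero_of_norm_lt_one hlt)).const_mul (2 + B)
    rw [add_zero, mul_zero] at h
    exact h.congr fun n => by ring
  have hzero : |twistMoment r 0 - G 0| ≤ 0 := ge_of_tendsto' hlim fun n => by
    have h := hbound n
    rw [hD n, abs_mul, abs_of_pos (by positivity : (0 : ℝ) < R ^ n)] at h
    have hRn : (0 : ℝ) < R ^ n := by positivity
    calc |twistMoment r 0 - G 0| ≤ ((n : ℝ) + 1) * ((2 + B) * 2 ^ n) / R ^ n := by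
          rw [le_div_iff₀ hRn, mul_comm]
          exact h
      _ = _ := by rw [div_pow]; field_simp
  have h := hD n
  rw [abs_nonpos_iff.1 hzero, mul_zero, sub_eq_zero] at h
  exact h

/-- The Hankel determinants are not zero. -/
theorem det_twistMoment_ne_zero {r : ℝ} (hr0 : 0 < r) (hr : r < 1) (M : ℕ) :
    (Matrix.of fun a b : Fin M => twistMoment r (a + b)).det ≠ 0 := by
  classical
  intro h
  obtain ⟨c, hc, hc0⟩ := Matrix.exists_mulVec_eq_zero_iff.2 h
  set P : Polynomial ℝ := ∑ a : Fin M, Polynomial.C (c a) * Polynomial.X ^ (a : ℕ) with hP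
  have heval : ∀ t, P.eval t = ∑ a : Fin M, c a * t ^ (a : ℕ) := fun t => by
    simp [hP, Polynomial.eval_finsetSum]
  have hcoeff : ∀ a : Fin M, P.coeff a = c a := fun a => by
    simp [hP, Polynomial.coeff_C_mul, Polynomial.coeff_X_pow,
      Fin.val_inj]
  have hP0 : P ≠ 0 := fun h' => hc (funext fun a => by rw [← hcoeff a, h']; rfl)
  obtain ⟨t, ht, htP⟩ : ∃ t ∈ Set.Ioo (-2 : ℝ) 2, P.eval t ≠ 0 := by
    by_contra hno
    push Not at hno
    exact hP0 (Polynomial.eq_zero_of_infinite_isRoot P
      ((Set.Ioo_infinite (by norm_num : (-2 : ℝ) < 2)).mono fun t ht => hno t ht))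
  have hd := continuous_twistDensity hr
  have hpos : 0 < semiMean fun t => P.eval t ^ 2 * twistDensity r t :=
    semiMean_pos (by fun_prop) (fun t => mul_nonneg (sq_nonneg _) (twistDensity_pos hr t).le) ht
      (mul_pos (lt_of_le_of_ne (sq_nonneg _) (pow_ne_zero 2 htP).symm) (twistDensity_pos hr t))
  refine hpos.ne' ?_
  have hexp : semiMean (fun t => P.eval t ^ 2 * twistDensity r t) =
      ∑ a : Fin M, c a * ∑ b : Fin M, twistMoment r (a + b) * c b := by
    simp only [twistMoment_eq hr0 hr, semiMean, Finset.mul_sum,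
      ← intervalIntegral.integral_const_mul, ← intervalIntegral.integral_mul_const]
    simp only [intervalIntegral.integral_const_mul, intervalIntegral.integral_mul_const]
    rw [intervalIntegral.integral_congr (g := fun t => ∑ a : Fin M, ∑ b : Fin M,
      c a * c b * (t ^ ((a : ℕ) + b) * twistDensity r t * √(4 - t ^ 2))) fun t _ => ?_,
      intervalIntegral.integral_finsetSum fun a _ => ?_, Finset.mul_sum]
    · refine Finset.sum_congr rfl fun a _ => ?_
      rw [intervalIntegral.integral_finsetSum fun b _ => ?_, Finset.mul_sum]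
      · refine Finset.sum_congr rfl fun b _ => ?_
        rw [intervalIntegral.integral_const_mul]
        ring
      · exact (intervalIntegrable_semi (by fun_prop)).const_mul _
    · exact (continuous_finsetSum _ fun b _ => by fun_prop).intervalIntegrable _ _
    · simp only [heval, sq, Finset.sum_mul, Finset.mul_sum]
      exact Finset.sum_congr rfl fun a _ => Finset.sum_congr rfl fun b _ => by ring
  rw [hexp]
  refine Finset.sum_eq_zero fun a _ => mul_eq_zero_of_right _ ?_
  exact congrFun hc0 a

/-- Fewer than `M` points kill the Hankel determinant. -/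
theorem det_hankel_eq_zero {ι K : Type*} [Field K] [DecidableEq K] (S : Finset ι) (w x : ι → K)
    {M : ℕ} (X : Finset K) (hX : ∀ i ∈ S, w i ≠ 0 → x i ∈ X) (hM : X.card < M) :
    (Matrix.of fun a b : Fin M => ∑ i ∈ S, w i * x i ^ ((a : ℕ) + b)).det = 0 := by
  classical
  set Q : Polynomial K := ∏ y ∈ X, (Polynomial.X - Polynomial.C y) with hQ
  have hdeg : Q.natDegree = X.card := Polynomial.natDegree_finsetProd_X_sub_C_eq_card X id
  have hmon : Q.Monic := Polynomial.monic_prod_of_monic _ _ fun y _ => Polynomial.monic_X_sub_C y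
  refine Matrix.exists_mulVec_eq_zero_iff.1 ⟨fun b : Fin M => Q.coeff b, fun h0 => ?_, ?_⟩
  · have h1 := congrFun h0 ⟨X.card, hM⟩
    simp only [Pi.zero_apply] at h1
    rw [← hdeg, hmon.coeff_natDegree] at h1
    exact one_ne_zero h1
  · funext a
    simp only [Matrix.mulVec, dotProduct, Matrix.of_apply, Pi.zero_apply, Finset.sum_mul]
    rw [Finset.sum_comm]
    refine Finset.sum_eq_zero fun i hi => ?_
    have he : ∑ b : Fin M, w i * x i ^ ((a : ℕ) + b) * Q.coeff b =
        w i * x i ^ (a : ℕ) * Q.eval (x i) := by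
      rw [Polynomial.eval_eq_sum_range' (hdeg.symm ▸ hM), Finset.mul_sum,
        Fin.sum_univ_eq_sum_range (fun b => w i * x i ^ ((a : ℕ) + b) * Q.coeff b)]
      exact Finset.sum_congr rfl fun b _ => by ring
    rw [he]
    by_cases hw : w i = 0
    · simp [hw]
    · rw [hQ, Polynomial.eval_prod, Finset.prod_eq_zero (hX i hi hw) (by simp), mul_zero]

end FA.KohnenNonvanishing

end
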