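import Fermat.Agent.KohnenNonvanishing.Moment
import Fermat.Agent.KohnenNonvanishing.Twist
import Mathlib.Analysis.InnerProductSpace.JointEigenspace

/-!
# Non-vanishing at eigenforms

`P_1` is a sum of joint eigenvectors of all `T_l`, which are multiples of normalised eigenforms.
`T_p^n P_1` is a combination of the `P_{p^i}`, so their L-values give twisted semicircle moments,
and these need many distinct eigenvalues of `T_p`.
-/

set_option autoImplicit false
set_option linter.style.haveILetI false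

noncomputable section

namespace FA.KohnenNonvanishing

open UpperHalfPlane hiding I
open Complex CongruenceSubgroup Filter VerticalSatoTate
open scoped MatrixGroups Real Topology

/-- A normalised eigenform of all `T_l` in level one. -/
def IsEigenformOne {k : ℤ} (f : CuspForm (Gamma0 1) k) : Prop :=
  (qExpansion 1 f).coeff 1 = 1 ∧
    ∀ (l : ℕ) (hl : l.Prime), ∃ x : ℂ, CuspForm.heckeTLin k hl hl.not_dvd_one f = x • f

theorem eq_zero_of_joint {k : ℤ} {f : CuspForm (Gamma0 1) k} {χ : Nat.Primes → ℂ}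
    (hf : ∀ l : Nat.Primes, CuspForm.heckeTLin k l.2 l.2.not_dvd_one f = χ l • f)
    (h1 : (qExpansion 1 f).coeff 1 = 0) : f = 0 := by
  refine EisCong.qL_injective (k := k) ?_
  rw [map_zero]
  funext n
  induction n using Nat.strong_induction_on with
  | h n ih =>
    rcases lt_trichotomy n 1 with hn | rfl | hn
    · obtain rfl : n = 0 := by omega
      exact EisCong.qL_zero f
    · exact h1
    · obtain ⟨p, hp, hpn⟩ := Nat.exists_prime_and_dvd hn.ne'
      obtain ⟨a, rfl⟩ := hpn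
      have ha : a < p * a := lt_mul_of_one_lt_left
        (Nat.pos_of_ne_zero fun h => by simp [h] at hn) hp.one_lt
      have h := EisCong.qL_heckeT hp f a
      rw [hf ⟨p, hp⟩, map_smul, Pi.smul_apply, ih a ha, smul_eq_mul, Pi.zero_apply, mul_zero,
        mul_comm a p] at h
      rw [Pi.zero_apply]
      rcases em (p ∣ a) with hd | hd
      · rw [if_pos hd, ih _ (lt_of_le_of_lt (Nat.div_le_self a p) ha), Pi.zero_apply, mul_zero,
          add_zero] at h
        exact h.symm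
      · rw [if_neg hd, add_zero] at h
        exact h.symm

theorem exists_eigenform_of_joint {k : ℤ} {f : CuspForm (Gamma0 1) k} {χ : Nat.Primes → ℂ}
    (hf : ∀ l : Nat.Primes, CuspForm.heckeTLin k l.2 l.2.not_dvd_one f = χ l • f) (hne : f ≠ 0) :
    ∃ c : ℂ, c ≠ 0 ∧ IsEigenformOne (c • f) ∧
      ∀ l : Nat.Primes, CuspForm.heckeTLin k l.2 l.2.not_dvd_one (c • f) = χ l • c • f := by
  have ha : (qExpansion 1 f).coeff 1 ≠ 0 := fun h => hne (eq_zero_of_joint hf h)
  have heig : ∀ (c : ℂ) (l : Nat.Primes),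
      CuspForm.heckeTLin k l.2 l.2.not_dvd_one (c • f) = χ l • c • f := fun c l => by
    rw [map_smul, hf, smul_comm]
  refine ⟨((qExpansion 1 f).coeff 1)⁻¹, inv_ne_zero ha,
    ⟨?_, fun l hl => ⟨χ ⟨l, hl⟩, heig _ ⟨l, hl⟩⟩⟩, heig _⟩
  rw [← coeffAt_apply, map_smul, coeffAt_apply, smul_eq_mul, inv_mul_cancel₀ ha]

theorem exists_joint_decomposition {k : ℤ} (f : CuspForm (Gamma0 1) k) :
    ∃ (S : Finset (Nat.Primes → ℂ)) (v : (Nat.Primes → ℂ) → CuspForm (Gamma0 1) k),
      f = ∑ χ ∈ S, v χ ∧ ∀ χ ∈ S, ∀ l : Nat.Primes,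
        CuspForm.heckeTLin k l.2 l.2.not_dvd_one (v χ) = χ l • v χ := by
  letI core : InnerProductSpace.Core ℂ (CuspForm (Gamma0 1) k) := Poincare.pairingCore
  letI : NormedAddCommGroup (CuspForm (Gamma0 1) k) := core.toNormedAddCommGroup
  letI : InnerProductSpace ℂ (CuspForm (Gamma0 1) k) := InnerProductSpace.ofCore core.toCore
  haveI : FiniteDimensional ℂ (CuspForm (Gamma0 1) k) := Valence.finite_cuspForm
  set T : Nat.Primes → (CuspForm (Gamma0 1) k →ₗ[ℂ] CuspForm (Gamma0 1) k) :=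
    fun l => CuspForm.heckeTLin k l.2 l.2.not_dvd_one with hT
  have hsym : ∀ l, (T l).IsSymmetric := fun l f g => pairing_heckeT l.2 l.2.not_dvd_one f g
  have htop := LinearMap.IsSymmetric.iSup_iInf_eq_top_of_commute hsym
    fun a b _ => CuspForm.heckeTLin_comm k a.2 a.2.not_dvd_one b.2 b.2.not_dvd_one
  obtain ⟨v, hv, hsum⟩ := (Submodule.mem_iSup_iff_exists_finsupp _ f).1
    (htop ▸ Submodule.mem_top : f ∈ ⨆ χ : Nat.Primes → ℂ, ⨅ l, Module.End.eigenspace (T l) (χ l))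
  exact ⟨v.support, v, hsum.symm, fun χ _ l =>
    Module.End.mem_eigenspace_iff.1 ((Submodule.mem_iInf _).1 (hv χ) l)⟩

/-! ## `T_p` on the Poincaré series -/

theorem poincareConst_succ {k : ℤ} {p : ℕ} (hp : p.Prime) (i : ℕ) :
    2 * ((1 / (4 * π * (p ^ i : ℕ))) ^ ((k : ℝ) - 1) * Real.Gamma (k - 1)) =
      (p : ℝ) ^ (k - 1) *
        (2 * ((1 / (4 * π * (p ^ (i + 1) : ℕ))) ^ ((k : ℝ) - 1) * Real.Gamma (k - 1))) := by
  have hp0 : (0 : ℝ) < p := Nat.cast_pos.2 hp.pos
  rw [show (1 / (4 * π * (p ^ i : ℕ) : ℝ)) = p * (1 / (4 * π * (p ^ (i + 1) : ℕ))) by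
    push_cast; rw [pow_succ]; field_simp, Real.mul_rpow hp0.le (by positivity), ← Real.rpow_intCast]
  push_cast
  ring

/-- `P_{p^i}`. -/
def powPoincare {k : ℤ} (hk : 3 ≤ k) {p : ℕ} (hp : p.Prime) (i : ℕ) : CuspForm (Gamma0 1) k :=
  Poincare.cuspForm 1 hk (pow_ne_zero i hp.ne_zero)

theorem heckeT_powPoincare {k : ℤ} (hk : 3 ≤ k) {p : ℕ} (hp : p.Prime) (i : ℕ) :
    CuspForm.heckeTLin k hp hp.not_dvd_one (powPoincare hk hp i) =
      ((p : ℂ) ^ (k - 1)) • powPoincare hk hp (i + 1) +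
        if i = 0 then 0 else powPoincare hk hp (i - 1) := by
  set D := CuspForm.heckeTLin k hp hp.not_dvd_one (powPoincare hk hp i) -
    (((p : ℂ) ^ (k - 1)) • powPoincare hk hp (i + 1) +
      if i = 0 then 0 else powPoincare hk hp (i - 1)) with hD
  suffices hzero : ∀ f : CuspForm (Gamma0 1) k, Poincare.pairing D f = 0 from
    sub_eq_zero.1 (Poincare.pairing_definite D (hzero D))
  intro f
  have hconj : (starRingEnd ℂ) ((p : ℂ) ^ (k - 1)) = (((p : ℝ) ^ (k - 1) : ℝ) : ℂ) := by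
    rw [map_zpow₀, map_natCast]
    push_cast
    rfl
  rcases i with _ | i
  · rw [hD, if_pos rfl, add_zero, sub_eq_add_neg, ← neg_one_smul ℂ (((p : ℂ) ^ (k - 1)) • _),
      Poincare.pairing_add_left, Poincare.pairing_smul_left, Poincare.pairing_smul_left,
      pairing_heckeT, powPoincare, powPoincare, Poincare.pairing_poincare,
      Poincare.pairing_poincare, ← coeffAt_apply, coeffAt_heckeT_pow hp hp.not_dvd_one f 0,
      if_pos rfl, add_zero, hconj, poincareConst_succ hp 0, coeffAt_apply]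
    simp only [map_neg, map_one]
    push_cast
    ring
  · rw [hD, if_neg (Nat.succ_ne_zero i), Nat.add_sub_cancel, sub_eq_add_neg,
      ← neg_one_smul ℂ (((p : ℂ) ^ (k - 1)) • _ + _), Poincare.pairing_add_left,
      Poincare.pairing_smul_left, Poincare.pairing_add_left, Poincare.pairing_smul_left,
      pairing_heckeT, powPoincare, powPoincare, powPoincare, Poincare.pairing_poincare,
      Poincare.pairing_poincare, Poincare.pairing_poincare, ← coeffAt_apply,
      coeffAt_heckeT_pow hp hp.not_dvd_one f (i + 1), if_neg (Nat.succ_ne_zero i),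
      Nat.add_sub_cancel, hconj, poincareConst_succ hp i, poincareConst_succ hp (i + 1),
      coeffAt_apply, coeffAt_apply]
    simp only [map_neg, map_one]
    push_cast
    ring

theorem heckeT_pow_poincare {k : ℤ} (hk : 3 ≤ k) {p : ℕ} (hp : p.Prime) (n : ℕ) :
    ((CuspForm.heckeTLin k hp hp.not_dvd_one) ^ n) (powPoincare hk hp 0) =
      (normScale p k : ℂ) ^ n • ∑ l ∈ Finset.range (n + 1),
        ((moment n l : ℝ) : ℂ) • (normScale p k : ℂ) ^ l • powPoincare hk hp l := by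
  set q : ℂ := (normScale p k : ℂ) with hq
  set v : ℕ → CuspForm (Gamma0 1) k := fun l => q ^ l • powPoincare hk hp l with hv
  have hq2 : q ^ 2 = (p : ℂ) ^ (k - 1) := by
    rw [hq, ← ofReal_pow, normScale_sq]
    push_cast
    rfl
  have hT : ∀ l, CuspForm.heckeTLin k hp hp.not_dvd_one (v l) =
      q • (v (l + 1) + if l = 0 then 0 else v (l - 1)) := by
    intro l
    simp only [hv]
    rw [map_smul, heckeT_powPoincare, ← hq2, smul_add, smul_add, smul_smul, smul_smul,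
      ← pow_succ' q, ← pow_add]
    rcases l with _ | l
    · simp
    · rw [if_neg (Nat.succ_ne_zero l), if_neg (Nat.succ_ne_zero l), Nat.add_sub_cancel, smul_smul,
        ← pow_succ' q]
  induction n with
  | zero => simp [moment_zero]
  | succ n ih =>
    rw [pow_succ', Module.End.mul_apply, ih, map_smul, map_sum, pow_succ, mul_smul]
    congr 1
    change ∑ l ∈ Finset.range (n + 1),
        CuspForm.heckeTLin k hp hp.not_dvd_one (((moment n l : ℝ) : ℂ) • v l) =
      q • ∑ l ∈ Finset.range (n + 1 + 1), ((moment (n + 1) l : ℝ) : ℂ) • v l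
    simp only [map_smul, hT, smul_comm _ q, ← Finset.smul_sum, smul_add, Finset.sum_add_distrib]
    rw [← smul_add]
    congr 1
    simp only [moment_succ, ofReal_add, add_smul, Finset.sum_add_distrib]
    rw [add_comm]
    congr 1
    · rw [Finset.sum_range_succ' _ n, Finset.sum_range_succ _ (n + 1), Finset.sum_range_succ _ n,
        moment_eq_zero_of_lt (by omega : n < n + 1 + 1),
        moment_eq_zero_of_lt (by omega : n < n + 1)]
      simp
    · rw [Finset.sum_range_succ' _ (n + 1)]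
      simp

/-! ## Many eigenvalues -/

theorem tendsto_twisted {J : ℕ → ℕ} (hJ : Tendsto J atTop atTop) (hJ2 : ∀ i, 2 ≤ J i) {t : ℝ}
    {ε : ℂ} (hε : Tendsto (fun i => signRatio (J i) (t : ℂ)) atTop (𝓝 ε)) (hεt : ε = 0 ∨ t = 0)
    {p : ℕ} (hp : p.Prime) (n : ℕ) :
    Tendsto (fun i => centralL ((((CuspForm.heckeTLin ((2 * J i : ℕ) : ℤ) hp hp.not_dvd_one) ^ n))
        (powPoincare (weight_ge (hJ2 i)) hp 0)) (t : ℂ) /
          (normScale p ((2 * J i : ℕ) : ℤ) : ℂ) ^ n) atTop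
      (𝓝 (2 * (1 + ε) * ((twistMoment ((p : ℝ) ^ (-(1 / 2 + t))) n : ℝ) : ℂ))) := by
  have hp0 : (0 : ℝ) < p := Nat.cast_pos.2 hp.pos
  set r : ℝ := (p : ℝ) ^ (-(1 / 2 + t)) with hr
  have hone : ∀ l : ℕ, Tendsto (fun i => (normScale p ((2 * J i : ℕ) : ℤ) : ℂ) ^ l *
      centralL (powPoincare (weight_ge (hJ2 i)) hp l) (t : ℂ)) atTop
      (𝓝 (2 * (1 + ε) * ((r ^ l : ℝ) : ℂ))) := by
    intro l
    have h := (tendsto_centralL_poincare hJ hJ2 hε (pow_ne_zero l hp.ne_zero)).const_mul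
      (((Real.sqrt p)⁻¹ ^ l : ℝ) : ℂ)
    have hs : ∀ i, (normScale p ((2 * J i : ℕ) : ℤ) : ℂ) ^ l =
        (((Real.sqrt p)⁻¹ ^ l : ℝ) : ℂ) * ((p ^ l : ℕ) : ℂ) ^ J i := fun i => by
      have e : normScale p ((2 * J i : ℕ) : ℤ) = (Real.sqrt p)⁻¹ * (p : ℝ) ^ J i := by
        rw [normScale, Real.sqrt_eq_rpow, ← Real.rpow_neg hp0.le, ← Real.rpow_natCast,
          ← Real.rpow_add hp0]
        push_cast
        ring_nf
      rw [e]
      push_cast
      rw [mul_pow, ← pow_mul, ← pow_mul, mul_comm l (J i)]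
    have hval : (((Real.sqrt p)⁻¹ ^ l : ℝ) : ℂ) *
        (2 * (((p ^ l : ℕ) : ℂ) ^ (-(t : ℂ)) + ε * ((p ^ l : ℕ) : ℂ) ^ (t : ℂ))) =
        2 * (1 + ε) * ((r ^ l : ℝ) : ℂ) := by
      have hc : ∀ u : ℝ, ((p ^ l : ℕ) : ℂ) ^ (u : ℂ) = ((((p : ℝ) ^ u) ^ l : ℝ) : ℂ) := fun u => by
        rw [← ofReal_natCast, ← ofReal_cpow (Nat.cast_nonneg _), Nat.cast_pow,
          Real.rpow_pow_comm hp0.le]
      rw [← ofReal_neg, hc, hc, hr, show (-(1 / 2 + t)) = -(1 / 2 : ℝ) + -t by ring,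
        Real.rpow_add hp0, Real.rpow_neg hp0.le (1 / 2), ← Real.sqrt_eq_rpow]
      rcases hεt with rfl | rfl
      · push_cast; ring
      · simp; ring
    rw [hval] at h
    exact h.congr fun i => by rw [hs i, powPoincare]; ring
  have hlim := tendsto_finsetSum (Finset.range (n + 1))
    fun l _ => (hone l).const_mul ((moment n l : ℝ) : ℂ)
  rw [show (2 * (1 + ε) * ((twistMoment r n : ℝ) : ℂ)) =
      ∑ l ∈ Finset.range (n + 1), ((moment n l : ℝ) : ℂ) * (2 * (1 + ε) * ((r ^ l : ℝ) : ℂ)) by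
    rw [twistMoment, ofReal_sum, Finset.mul_sum]
    exact Finset.sum_congr rfl fun l _ => by push_cast; ring]
  refine hlim.congr fun i => ?_
  have hk : 0 < 2 * J i := by have := hJ2 i; omega
  have hqn : (normScale p ((2 * J i : ℕ) : ℤ) : ℂ) ^ n ≠ 0 :=
    pow_ne_zero _ (ofReal_ne_zero.2 (normScale_pos hp _).ne')
  simp only [centralL, ← lambdaLin_apply hk]
  rw [heckeT_pow_poincare, map_smul, map_sum, smul_eq_mul]
  simp only [map_smul, smul_eq_mul, Finset.mul_sum, Finset.sum_div]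
  refine Finset.sum_congr rfl fun l _ => ?_
  field_simp

theorem eventually_many_eigenvalues {J : ℕ → ℕ} (hJ : Tendsto J atTop atTop) (hJ2 : ∀ i, 2 ≤ J i)
    {t : ℝ} (ht : 0 ≤ t) {ε : ℂ} (hε : Tendsto (fun i => signRatio (J i) (t : ℂ)) atTop (𝓝 ε))
    (hεt : ε = 0 ∨ t = 0) (hε1 : 1 + ε ≠ 0) {p : ℕ} (hp : p.Prime) (M : ℕ) :
    ∀ᶠ i in atTop, ∃ (f : Fin M → CuspForm (Gamma0 1) ((2 * J i : ℕ) : ℤ)) (x : Fin M → ℂ),
      Function.Injective x ∧ ∀ a, IsEigenformOne (f a) ∧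
        CuspForm.heckeTLin ((2 * J i : ℕ) : ℤ) hp hp.not_dvd_one (f a) = x a • f a ∧
        centralLambda (f a) ((J i : ℂ) + (t : ℂ)) ≠ 0 := by
  classical
  set r : ℝ := (p : ℝ) ^ (-(1 / 2 + t)) with hr
  have hr0 : 0 < r := Real.rpow_pos_of_pos (Nat.cast_pos.2 hp.pos) _
  have hr1 : r < 1 := Real.rpow_lt_one_of_one_lt_of_neg (Nat.one_lt_cast.2 hp.one_lt) (by linarith)
  set A : ℕ → Matrix (Fin M) (Fin M) ℂ := fun i => Matrix.of fun a b =>
    centralL ((((CuspForm.heckeTLin ((2 * J i : ℕ) : ℤ) hp hp.not_dvd_one) ^ ((a : ℕ) + b)))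
      (powPoincare (weight_ge (hJ2 i)) hp 0)) (t : ℂ) /
        (normScale p ((2 * J i : ℕ) : ℤ) : ℂ) ^ ((a : ℕ) + b) with hA
  set H : Matrix (Fin M) (Fin M) ℂ :=
    Matrix.of fun a b => 2 * (1 + ε) * ((twistMoment r ((a : ℕ) + b) : ℝ) : ℂ) with hH
  have hAlim : Tendsto A atTop (𝓝 H) := tendsto_pi_nhds.2 fun a => tendsto_pi_nhds.2 fun b =>
    tendsto_twisted hJ hJ2 hε hεt hp _
  have hdet : H.det ≠ 0 := by
    have e : H = (2 * (1 + ε)) •
        (Matrix.of fun a b : Fin M => twistMoment r ((a : ℕ) + b)).map Complex.ofRealHom := by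
      ext a b
      simp [hH, Matrix.map_apply]
    rw [e, Matrix.det_smul]
    refine mul_ne_zero (pow_ne_zero _ (mul_ne_zero two_ne_zero hε1)) ?_
    have hmap := RingHom.map_det Complex.ofRealHom
      (Matrix.of fun a b : Fin M => twistMoment r ((a : ℕ) + b))
    rw [RingHom.mapMatrix_apply] at hmap
    rw [← hmap]
    exact (map_ne_zero Complex.ofRealHom).2 (det_twistMoment_ne_zero hr0 hr1 M)
  have hev : ∀ᶠ i in atTop, (A i).det ≠ 0 :=
    ((Continuous.matrix_det continuous_id).continuousAt.tendsto.comp hAlim).eventually_ne hdet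
  filter_upwards [hev] with i hi
  set k : ℤ := ((2 * J i : ℕ) : ℤ) with hk
  have hk0 : 0 < 2 * J i := by have := hJ2 i; omega
  set q : ℂ := (normScale p k : ℂ) with hq
  obtain ⟨S, v, hsum, hv⟩ := exists_joint_decomposition (powPoincare (weight_ge (hJ2 i)) hp 0)
  set pp : Nat.Primes := ⟨p, hp⟩
  set w : (Nat.Primes → ℂ) → ℂ := fun χ => centralL (v χ) (t : ℂ) with hw
  set x : (Nat.Primes → ℂ) → ℂ := fun χ => χ pp / q with hx
  have hentry : ∀ a b : Fin M, A i a b = ∑ χ ∈ S, w χ * x χ ^ ((a : ℕ) + b) := by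
    intro a b
    simp only [hA, Matrix.of_apply, hw, hx]
    generalize (a : ℕ) + b = n
    have hpow : ∀ χ ∈ S, ((CuspForm.heckeTLin k hp hp.not_dvd_one) ^ n) (v χ) =
        χ pp ^ n • v χ := by
      intro χ hχ
      induction n with
      | zero => simp
      | succ n ih =>
        rw [pow_succ', Module.End.mul_apply, ih, map_smul, hv χ hχ pp, smul_smul, pow_succ]
    rw [hsum, map_sum, Finset.sum_congr rfl hpow]
    simp only [centralL, ← lambdaLin_apply hk0, map_sum, map_smul, smul_eq_mul, Finset.sum_div]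
    exact Finset.sum_congr rfl fun χ _ => by rw [div_pow]; ring
  set X := (S.filter fun χ => w χ ≠ 0).image fun χ => χ pp with hX
  have hcard : M ≤ X.card := by
    by_contra hlt
    refine hi ?_
    rw [show A i = Matrix.of fun a b : Fin M => ∑ χ ∈ S, w χ * x χ ^ ((a : ℕ) + b) from
      Matrix.ext hentry]
    exact det_hankel_eq_zero S w x (X.image fun y => y / q) (fun χ hχ hne => Finset.mem_image.2
      ⟨χ pp, Finset.mem_image.2 ⟨χ, Finset.mem_filter.2 ⟨hχ, hne⟩, rfl⟩, rfl⟩)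
      (Finset.card_image_le.trans_lt (not_le.1 hlt))
  obtain ⟨emb, hemb⟩ : ∃ e : Fin M → ℂ, Function.Injective e ∧ ∀ a, e a ∈ X := by
    obtain ⟨Y, hYX, hY⟩ := Finset.exists_subset_card_eq hcard
    exact ⟨fun a => ((Y.equivFinOfCardEq hY).symm a : ℂ),
      Subtype.val_injective.comp (Equiv.injective _), fun a => hYX (Subtype.coe_prop _)⟩
  have hchoose : ∀ a, ∃ g : CuspForm (Gamma0 1) k, IsEigenformOne g ∧
      CuspForm.heckeTLin k hp hp.not_dvd_one g = emb a • g ∧
      centralLambda g ((J i : ℂ) + (t : ℂ)) ≠ 0 := by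
    intro a
    obtain ⟨χ, hχ, hχa⟩ := Finset.mem_image.1 (hemb.2 a)
    obtain ⟨hχS, hne⟩ := Finset.mem_filter.1 hχ
    have hv0 : v χ ≠ 0 := fun h0 => hne (by
      simp [hw, centralL, h0, ← lambdaLin_apply hk0])
    obtain ⟨c, hc, hf, heig⟩ := exists_eigenform_of_joint (hv χ hχS) hv0
    refine ⟨c • v χ, hf, by rw [← hχa]; exact heig pp, ?_⟩
    rw [← lambdaLin_apply hk0, map_smul, smul_eq_mul, lambdaLin_apply]
    exact mul_ne_zero hc fun h0 => hne (by simp [hw, centralL, h0])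
  choose f hf using hchoose
  exact ⟨f, emb, hemb.1, hf⟩

theorem exists_nonvanishing {j : ℕ} (hj : 2 ≤ j) {δ : ℂ}
    (h : centralL (Poincare.cuspForm 1 (weight_ge hj) one_ne_zero) δ ≠ 0) :
    ∃ f : CuspForm (Gamma0 1) ((2 * j : ℕ) : ℤ),
      IsEigenformOne f ∧ centralLambda f ((j : ℂ) + δ) ≠ 0 := by
  have hk0 : 0 < 2 * j := by omega
  obtain ⟨S, v, hsum, hv⟩ := exists_joint_decomposition
    (Poincare.cuspForm 1 (weight_ge hj) one_ne_zero)
  have hP : lambdaLin hk0 ((j : ℂ) + δ) (Poincare.cuspForm 1 (weight_ge hj) one_ne_zero) ≠ 0 :=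
    fun h0 => h (by rw [centralL, ← lambdaLin_apply hk0, h0, zero_div])
  rw [hsum, map_sum] at hP
  obtain ⟨χ, hχ, hne⟩ := Finset.exists_ne_zero_of_sum_ne_zero hP
  obtain ⟨c, hc, hf, -⟩ := exists_eigenform_of_joint (hv χ hχ) fun h0 => hne (by rw [h0, map_zero])
  refine ⟨c • v χ, hf, ?_⟩
  rw [← lambdaLin_apply hk0, map_smul, smul_eq_mul]
  exact mul_ne_zero hc hne

end FA.KohnenNonvanishing

end
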