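import Mathlib.Analysis.SpecialFunctions.Gamma.Beta
import Mathlib.Analysis.SpecialFunctions.Gamma.BohrMollerup
import Mathlib.Analysis.SpecialFunctions.Pow.Integral
import Mathlib.Analysis.SpecialFunctions.Integrals.Basic
import Mathlib.Topology.Algebra.Order.Floor

/-!
# Quotients of Gamma values far to the right

`Γ(x - δ) / Γ(x + δ) → 0` for `re δ > 0`, and `‖Γ(x + δ)‖` outgrows every exponential.
-/

set_option autoImplicit false

noncomputable section

namespace FA.KohnenNonvanishing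

open Complex MeasureTheory Filter Set
open scoped Real Topology Nat

theorem norm_betaIntegral_le {a u : ℂ} :
    ‖betaIntegral a u‖ ≤
      ∫ x : ℝ in (0 : ℝ)..1, x ^ (a.re - 1) * (1 - x) ^ (u.re - 1) := by
  refine (intervalIntegral.norm_integral_le_integral_norm zero_le_one).trans_eq ?_
  refine intervalIntegral.integral_congr_ae ?_
  filter_upwards [(Measure.ae_ne volume (0 : ℝ)), (Measure.ae_ne volume (1 : ℝ))] with x h0 h1 hx
  rw [uIoc_of_le zero_le_one] at hx
  have hx0 : 0 < x := lt_of_le_of_ne hx.1.le (Ne.symm h0)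
  have hx1 : 0 < 1 - x := sub_pos.2 (lt_of_le_of_ne hx.2 h1)
  rw [norm_mul, norm_cpow_eq_rpow_re_of_pos hx0, ← ofReal_one, ← ofReal_sub,
    norm_cpow_eq_rpow_re_of_pos hx1]
  simp

theorem intervalIntegrable_one_sub_rpow {v : ℝ} (hv : 0 < v) :
    IntervalIntegrable (fun x : ℝ => (1 - x) ^ (v - 1)) volume 0 1 := by
  have h : IntervalIntegrable (fun x : ℝ => x ^ (v - 1)) volume 0 1 :=
    intervalIntegral.intervalIntegrable_rpow' (by linarith)
  simpa using (h.comp_sub_left 1).symm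

theorem tendsto_beta_zero {v : ℝ} (hv : 0 < v) :
    Tendsto (fun X : ℝ => ∫ x : ℝ in (0 : ℝ)..1, x ^ (X - 1) * (1 - x) ^ (v - 1)) atTop (𝓝 0) := by
  suffices h : Tendsto (fun X : ℝ => ∫ x : ℝ in (0 : ℝ)..1, x ^ (X - 1) * (1 - x) ^ (v - 1))
      atTop (𝓝 (∫ _ : ℝ in (0 : ℝ)..1, (0 : ℝ))) by simpa using h
  refine intervalIntegral.tendsto_integral_filter_of_dominated_convergence
    (fun x => (1 - x) ^ (v - 1)) (Eventually.of_forall fun X => ?_) ?_
    (intervalIntegrable_one_sub_rpow hv) ?_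
  · exact ((measurable_id.pow_const _).mul ((measurable_const.sub measurable_id).pow_const _))
      |>.aestronglyMeasurable
  · filter_upwards [eventually_ge_atTop 1] with X hX
    refine Eventually.of_forall fun x hx => ?_
    rw [uIoc_of_le zero_le_one] at hx
    rw [norm_mul, Real.norm_of_nonneg (Real.rpow_nonneg hx.1.le _),
      Real.norm_of_nonneg (Real.rpow_nonneg (by linarith [hx.2]) _)]
    exact mul_le_of_le_one_left (Real.rpow_nonneg (by linarith [hx.2]) _)
      (Real.rpow_le_one hx.1.le hx.2 (by linarith))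
  · filter_upwards [Measure.ae_ne volume (1 : ℝ)] with x h1 hx
    rw [uIoc_of_le zero_le_one] at hx
    have hlt : x < 1 := lt_of_le_of_ne hx.2 h1
    have h := (tendsto_rpow_atTop_of_base_lt_one x (by linarith [hx.1]) hlt).comp
      (tendsto_atTop_add_const_right atTop (-1 : ℝ) tendsto_id)
    simpa [Function.comp_def, sub_eq_add_neg] using h.mul_const ((1 - x) ^ (v - 1))

theorem tendsto_gamma_ratio {δ : ℂ} (hδ : 0 < δ.re) :
    Tendsto (fun j : ℕ => Gamma ((j : ℂ) - δ) / Gamma ((j : ℂ) + δ)) atTop (𝓝 0) := by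
  have h1 := ((tendsto_beta_zero (v := (2 * δ).re) (by simpa using hδ)).comp
    (tendsto_atTop_add_const_right atTop (-δ.re) tendsto_natCast_atTop_atTop)).div_const
    ‖Gamma (2 * δ)‖
  rw [zero_div] at h1
  refine squeeze_zero_norm' ?_ h1
  filter_upwards [eventually_ge_atTop (⌈δ.re⌉₊ + 1)] with j hj
  have hja : δ.re < j := lt_of_le_of_lt (Nat.le_ceil _) (by exact_mod_cast hj)
  have ha : 0 < ((j : ℂ) - δ).re := by simpa using hja
  have hu : 0 < (2 * δ).re := by simpa using hδ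
  have h := Gamma_mul_Gamma_eq_betaIntegral ha hu
  rw [show (j : ℂ) - δ + 2 * δ = j + δ by ring] at h
  have h2 : Gamma ((j : ℂ) + δ) ≠ 0 := Gamma_ne_zero_of_re_pos (by simp; linarith)
  have h3 : Gamma (2 * δ) ≠ 0 := Gamma_ne_zero_of_re_pos hu
  have e : Gamma ((j : ℂ) - δ) / Gamma ((j : ℂ) + δ) =
      betaIntegral ((j : ℂ) - δ) (2 * δ) / Gamma (2 * δ) := by
    rw [div_eq_div_iff h2 h3]
    linear_combination h
  rw [e, norm_div]
  refine div_le_div_of_nonneg_right (norm_betaIntegral_le.trans_eq ?_) (norm_nonneg _)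
  simp [sub_eq_add_neg]

theorem norm_Gamma_ge {x : ℝ} (hx : 0 < x) (τ : ℝ) :
    Real.Gamma (x + 1) * ‖Gamma (1 + τ * I)‖ ≤ ‖Gamma ((x : ℂ) + (1 + τ * I))‖ := by
  have h := Gamma_mul_Gamma_eq_betaIntegral (s := (x : ℂ)) (t := 1 + τ * I) (by simpa using hx)
    (by simp)
  have hb : ‖betaIntegral (x : ℂ) (1 + τ * I)‖ ≤ 1 / x := by
    refine norm_betaIntegral_le.trans_eq ?_
    simp [integral_rpow (Or.inl (by linarith : -1 < x - 1)), Real.zero_rpow hx.ne']
  have hn := congrArg (‖·‖) h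
  rw [norm_mul, norm_mul, Gamma_ofReal, norm_real,
    Real.norm_of_nonneg (Real.Gamma_pos_of_pos hx).le] at hn
  rw [Real.Gamma_add_one hx.ne', mul_assoc, hn]
  calc x * (‖Gamma ((x : ℂ) + (1 + τ * I))‖ * ‖betaIntegral (x : ℂ) (1 + τ * I)‖)
      ≤ x * (‖Gamma ((x : ℂ) + (1 + τ * I))‖ * (1 / x)) := by gcongr
    _ = _ := by field_simp

theorem tendsto_pow_div_norm_Gamma (δ : ℂ) (c : ℝ) :
    Tendsto (fun j : ℕ => c ^ j / ‖Gamma ((j : ℂ) + δ)‖) atTop (𝓝 0) := by
  set N₀ : ℕ := ⌈|δ.re|⌉₊ + 1 with hN₀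
  set G := ‖Gamma (1 + δ.im * I)‖ with hG
  have hGpos : 0 < G := norm_pos_iff.2 (Gamma_ne_zero_of_re_pos (by simp))
  have h1 : Tendsto (fun j : ℕ => |c| ^ N₀ / G * (|c| ^ (j - N₀) / (j - N₀)!)) atTop (𝓝 0) := by
    simpa using ((FloorSemiring.tendsto_pow_div_factorial_atTop |c|).comp
      (tendsto_sub_atTop_nat N₀)).const_mul (|c| ^ N₀ / G)
  refine squeeze_zero_norm' ?_ h1
  filter_upwards [eventually_ge_atTop (N₀ + 1)] with j hj
  have hσ : |δ.re| + 1 ≤ (N₀ : ℝ) := by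
    rw [hN₀]; push_cast; linarith [Nat.le_ceil |δ.re|]
  have habs := abs_le.1 (show |δ.re| ≤ (N₀ : ℝ) - 1 by linarith)
  have hjR : (N₀ : ℝ) + 1 ≤ j := by exact_mod_cast hj
  set x : ℝ := (j : ℝ) + δ.re - 1 with hx
  have hx0 : 0 < x := by linarith
  have hj' : ((j - N₀ : ℕ) : ℝ) = (j : ℝ) - N₀ := by rw [Nat.cast_sub (by omega)]
  have hfac : ((j - N₀)! : ℝ) ≤ Real.Gamma (x + 1) := by
    rw [← Real.Gamma_nat_eq_factorial]
    refine Real.Gamma_strictMonoOn_Ici.monotoneOn ?_ ?_ (by linarith)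
    · simp only [mem_Ici]; linarith
    · simp only [mem_Ici]; linarith
  have hlow : (j - N₀)! * G ≤ ‖Gamma ((j : ℂ) + δ)‖ := by
    refine (mul_le_mul_of_nonneg_right hfac hGpos.le).trans ((norm_Gamma_ge hx0 δ.im).trans_eq ?_)
    congr 2
    apply Complex.ext <;> simp [hx]
  rw [norm_div, norm_norm, norm_pow, Real.norm_eq_abs]
  refine (div_le_div_of_nonneg_left (by positivity) (mul_pos (by positivity) hGpos) hlow).trans_eq
    ?_
  conv_lhs => rw [show j = N₀ + (j - N₀) by omega, pow_add]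
  simp only [Nat.add_sub_cancel_left]
  field_simp

end FA.KohnenNonvanishing

end
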