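import Fermat.Agent.KohnenNonvanishing.Lambda
import Fermat.Agent.KohnenNonvanishing.GammaRatio
import Fermat.Agent.Poincare.Coefficient

/-!
# The L-series of a Poincaré series

For `t ≥ 1` the series is `2 e^(-2π m t)` up to `O(t^(4-k))`, so `Λ(P_m, s)` is, up to `O(1)`,
`2 (2π m)^(-s) Γ(s)` plus the same at `k - s` times `i^k`.
-/

set_option autoImplicit false

noncomputable section

namespace FA.KohnenNonvanishing

open UpperHalfPlane hiding I
open Complex CongruenceSubgroup MeasureTheory Set Filter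
open scoped MatrixGroups Real Topology

/-- `∑ ‖v‖ ^ (-4)`. -/
def latticeConst : ℝ := ∑' v : Fin 2 → ℤ, ‖v‖ ^ (-(4 : ℝ))

theorem latticeConst_nonneg : 0 ≤ latticeConst := tsum_nonneg fun v => by positivity

theorem offTerm_le {k : ℕ} (hk : 4 ≤ k) {y : ℝ} (hy : 1 ≤ y) {z : ℍ} (hz : (z : ℂ) = y * I)
    (v : Fin 2 → ℤ) :
    Poincare.offTerm (k : ℤ) z v ≤ (y ^ (k - 4))⁻¹ * ‖v‖ ^ (-(4 : ℝ)) := by
  unfold Poincare.offTerm
  split_ifs with h0
  · positivity
  have hy0 : 0 < y := by linarith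
  have h1 : (1 : ℝ) ≤ |(v 0 : ℝ)| := by exact_mod_cast Int.one_le_abs h0
  set w : ℂ := (v 0 : ℂ) * z + v 1 with hw
  have him : y * |(v 0 : ℝ)| ≤ ‖w‖ := by
    refine le_trans (le_of_eq ?_) (abs_im_le_norm w)
    simp [hw, hz, abs_mul, abs_of_pos hy0, mul_comm]
  have hre : |(v 1 : ℝ)| ≤ ‖w‖ := by
    refine le_trans (le_of_eq ?_) (abs_re_le_norm w)
    simp [hw, hz]
  have hv : ‖v‖ ≤ ‖w‖ := (pi_norm_le_iff_of_nonneg (norm_nonneg w)).2 fun i => by
    fin_cases i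
    · show ‖v 0‖ ≤ _
      rw [Int.norm_eq_abs]
      exact (le_mul_of_one_le_left (abs_nonneg _) hy).trans him
    · show ‖v 1‖ ≤ _
      rw [Int.norm_eq_abs]
      exact hre
  have hvpos : 0 < ‖v‖ := norm_pos_iff.2 fun h => h0 (by simp [h])
  have hwy : y ≤ ‖w‖ := (le_mul_of_one_le_right hy0.le h1).trans him
  rw [EisensteinSeries.eisSummand, norm_zpow, ← hw, zpow_neg, zpow_natCast,
    Real.rpow_neg hvpos.le, show (4 : ℝ) = ((4 : ℕ) : ℝ) by norm_num, Real.rpow_natCast,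
    ← mul_inv, show ‖w‖ ^ k = ‖w‖ ^ (k - 4) * ‖w‖ ^ 4 by rw [← pow_add]; congr 1; omega]
  gcongr

theorem norm_poincare_axis_le {k : ℕ} (hk : 5 ≤ k) (he : Even k) {m : ℕ} (hm : m ≠ 0) {y : ℝ}
    (hy : 1 ≤ y) :
    ‖axisVal (Poincare.cuspForm 1 (by omega : (3 : ℤ) ≤ (k : ℤ)) hm) y -
      2 * (Real.exp (-(2 * π * m * y)) : ℂ)‖ ≤ 2 * latticeConst * (y ^ (k - 4))⁻¹ := by
  have hy0 : 0 < y := by linarith
  have hk3 : (3 : ℤ) ≤ (k : ℤ) := by omega
  set z := ofComplex (I * (y : ℂ)) with hzdef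
  have hz : (z : ℂ) = y * I := by
    rw [hzdef, ofComplex_apply_of_im_pos (by simpa using hy0)]
    exact mul_comm _ _
  rw [axisVal_eq (by omega) _ hy0, ← hzdef, Poincare.cuspForm_apply, Poincare.series_eq_pos hk3,
    ((Int.even_coe_nat k).2 he).neg_one_zpow, show (1 : ℂ) + 1 = 2 by norm_num]
  set v₀ : Poincare.posRows 1 := Poincare.rowOf none with hv₀
  have hsum : Summable fun v : Poincare.posRows 1 => ‖Poincare.term m (k : ℤ) v.1 z‖ :=
    ((EisensteinSeries.summable_norm_eisSummand hk3 z).subtype _).of_nonneg_of_le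
      (fun _ => norm_nonneg _) fun v => Poincare.norm_term_le m _ v.2.1.1 z
  classical
  rw [hsum.of_norm.tsum_eq_add_tsum_ite v₀]
  have hzero : Poincare.term m (k : ℤ) v₀.1 z = (Real.exp (-(2 * π * m * y)) : ℂ) := by
    have h1 : Poincare.term m (k : ℤ) v₀.1 = Poincare.kernel m := by
      rw [show v₀.1 = (1 : SL(2, ℤ)) 1 by funext i; fin_cases i <;> simp [hv₀, Poincare.rowOf],
        ← Poincare.kernel_slash, SlashAction.slash_one]
    rw [h1, Poincare.kernel, hz, ofReal_exp]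
    congr 1
    push_cast
    linear_combination (2 * π * m * y : ℂ) * I_sq
  rw [hzero, mul_add, add_sub_cancel_left, norm_mul, Complex.norm_two, mul_assoc]
  refine mul_le_mul_of_nonneg_left ?_ zero_le_two
  have hb : Summable fun v : Fin 2 → ℤ => (y ^ (k - 4))⁻¹ * ‖v‖ ^ (-(4 : ℝ)) :=
    (EisensteinSeries.summable_one_div_norm_rpow (by norm_num : (2 : ℝ) < 4)).mul_left _
  have hle : ∀ v : Poincare.posRows 1, ‖if v = v₀ then 0 else Poincare.term m (k : ℤ) v.1 z‖ ≤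
      (y ^ (k - 4))⁻¹ * ‖v.1‖ ^ (-(4 : ℝ)) := by
    intro v
    split_ifs with h
    · rw [norm_zero]; positivity
    have h0 : v.1 0 ≠ 0 := by
      intro h0
      refine h (Subtype.ext ?_)
      rcases v.2.2.2 with hp | ⟨-, h1⟩
      · omega
      · have hu := v.2.1.1
        rw [h0, isCoprime_zero_left, Int.isUnit_iff] at hu
        funext i
        fin_cases i <;> simp [hv₀, Poincare.rowOf, h0]
        omega
    refine (Poincare.norm_term_le m _ v.2.1.1 z).trans (le_of_eq_of_le ?_ (offTerm_le (by omega) hy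
      hz v.1))
    rw [Poincare.offTerm, if_neg h0]
  refine (tsum_of_norm_bounded (hb.subtype _).hasSum hle).trans ?_
  refine (Summable.tsum_subtype_le _ _ (fun v => by positivity) hb).trans_eq ?_
  rw [tsum_mul_left, latticeConst, mul_comm]

theorem norm_integral_exp_sub_le {w : ℂ} (hw : 1 ≤ w.re) {m : ℕ} (hm : m ≠ 0) :
    IntegrableOn (fun t : ℝ => (Real.exp (-(2 * π * m * t)) : ℂ) * (t : ℂ) ^ (w - 1)) (Ioi 1) ∧
    ‖(∫ t in Ioi (1 : ℝ), (Real.exp (-(2 * π * m * t)) : ℂ) * (t : ℂ) ^ (w - 1)) -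
      ((2 * π * m : ℝ) : ℂ) ^ (-w) * Gamma w‖ ≤ 1 := by
  have hr : (0 : ℝ) < 2 * π * m := by
    have : (0 : ℝ) < m := by exact_mod_cast hm.bot_lt
    positivity
  have hw0 : 0 < w.re := by linarith
  set g : ℝ → ℂ := fun t => (Real.exp (-(2 * π * m * t)) : ℂ) * (t : ℂ) ^ (w - 1) with hg
  have hval := integral_cpow_mul_exp_neg_mul_Ioi hw0 hr
  have heq : ∀ t : ℝ, (t : ℂ) ^ (w - 1) * cexp (-((2 * π * m : ℝ) * t)) = g t := fun t => by
    simp [hg, ofReal_exp, mul_comm]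
  simp only [heq] at hval
  have hpow : (1 / ((2 * π * m : ℝ) : ℂ)) ^ w = ((2 * π * m : ℝ) : ℂ) ^ (-w) := by
    rw [one_div, inv_cpow _ _ (by rw [arg_ofReal_of_nonneg hr.le]; exact Real.pi_ne_zero.symm),
      cpow_neg]
  rw [hpow] at hval
  have hint : IntegrableOn g (Ioi 0) := by
    refine Integrable.of_integral_ne_zero ?_
    rw [hval]
    exact mul_ne_zero (cpow_ne_zero_iff.2 (Or.inl (ofReal_ne_zero.2 hr.ne')))
      (Gamma_ne_zero_of_re_pos hw0)
  refine ⟨hint.mono_set (Ioi_subset_Ioi zero_le_one), ?_⟩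
  rw [← hval, ← Ioc_union_Ioi_eq_Ioi zero_le_one, setIntegral_union (Ioc_disjoint_Ioi le_rfl)
    measurableSet_Ioi (hint.mono_set Ioc_subset_Ioi_self)
    (hint.mono_set (Ioi_subset_Ioi zero_le_one)), sub_add_cancel_right, norm_neg]
  refine (norm_setIntegral_le_of_norm_le_const (C := 1) (by simp [Real.volume_Ioc])
    fun t ht => ?_).trans (by simp [Real.volume_real_Ioc])
  rw [hg, norm_mul, norm_real, Real.norm_of_nonneg (Real.exp_pos _).le,
    norm_cpow_eq_rpow_re_of_pos ht.1]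
  exact mul_le_one₀ (Real.exp_le_one_iff.2 (by nlinarith [ht.1])) (Real.rpow_nonneg ht.1.le _)
    (Real.rpow_le_one ht.1.le ht.2 (by simpa using hw))

theorem norm_upper_poincare_le {k : ℕ} (he : Even k) {m : ℕ} (hm : m ≠ 0) {w : ℂ} (hw : 1 ≤ w.re)
    (hwk : w.re + 5 ≤ k) :
    ‖(∫ t in Ioi (1 : ℝ), axisVal (Poincare.cuspForm 1
        (show (3 : ℤ) ≤ (k : ℤ) by
          have : (6 : ℝ) ≤ k := by linarith
          norm_cast at this ⊢
          omega) hm) t * (t : ℂ) ^ (w - 1)) -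
      2 * (((2 * π * m : ℝ) : ℂ) ^ (-w) * Gamma w)‖ ≤ 2 + 2 * latticeConst := by
  have hk : 6 ≤ k := by
    have : (6 : ℝ) ≤ k := by linarith
    exact_mod_cast this
  set P := Poincare.cuspForm 1 (show (3 : ℤ) ≤ (k : ℤ) by omega) hm
  obtain ⟨hi, hb⟩ := norm_integral_exp_sub_le hw hm
  set g : ℝ → ℂ := fun t => (Real.exp (-(2 * π * m * t)) : ℂ) * (t : ℂ) ^ (w - 1) with hg
  have hP : IntegrableOn (fun t : ℝ => axisVal P t * (t : ℂ) ^ (w - 1)) (Ioi 1) :=
    (centralLambda_eq_split (by omega) P w).1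
  have hsq : IntegrableOn (fun t : ℝ => 2 * latticeConst * t ^ (-2 : ℝ)) (Ioi 1) :=
    (integrableOn_Ioi_rpow_of_lt (by norm_num) zero_lt_one).const_mul _
  have hrest : ‖(∫ t in Ioi (1 : ℝ), axisVal P t * (t : ℂ) ^ (w - 1)) - 2 * ∫ t in Ioi (1 : ℝ), g t‖
      ≤ 2 * latticeConst := by
    rw [← integral_const_mul, ← integral_sub hP (hi.const_mul 2)]
    refine (norm_integral_le_of_norm_le hsq ?_).trans_eq ?_
    · filter_upwards [ae_restrict_mem measurableSet_Ioi] with t (ht : 1 < t)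
      have ht0 : 0 < t := by linarith
      rw [hg, ← mul_assoc, ← sub_mul, norm_mul, norm_cpow_eq_rpow_re_of_pos ht0]
      refine (mul_le_mul_of_nonneg_right (norm_poincare_axis_le (by omega) he hm ht.le)
        (Real.rpow_nonneg ht0.le _)).trans ?_
      rw [mul_assoc (2 * latticeConst)]
      refine mul_le_mul_of_nonneg_left ?_ (mul_nonneg zero_le_two latticeConst_nonneg)
      rw [← Real.rpow_natCast, ← Real.rpow_neg ht0.le, ← Real.rpow_add ht0]
      refine Real.rpow_le_rpow_of_exponent_le ht.le ?_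
      rw [Nat.cast_sub (by omega), sub_re, one_re]
      push_cast
      linarith
    · rw [integral_const_mul, integral_Ioi_rpow_of_lt (by norm_num) zero_lt_one]
      norm_num
  calc _ ≤ ‖(∫ t in Ioi (1 : ℝ), axisVal P t * (t : ℂ) ^ (w - 1)) - 2 * ∫ t in Ioi (1 : ℝ), g t‖ +
        ‖2 * (∫ t in Ioi (1 : ℝ), g t) - 2 * (((2 * π * m : ℝ) : ℂ) ^ (-w) * Gamma w)‖ :=
        norm_sub_le_norm_sub_add_norm_sub _ _ _
    _ ≤ 2 * latticeConst + 2 * 1 := by
        rw [← mul_sub, norm_mul, Complex.norm_two]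
        gcongr
    _ = _ := by ring

theorem norm_centralLambda_poincare_sub_le {k : ℕ} (he : Even k) {m : ℕ} (hm : m ≠ 0) {s : ℂ}
    (hk : (3 : ℤ) ≤ (k : ℤ)) (h3 : 5 ≤ s.re) (h2 : s.re + 5 ≤ k) :
    ‖centralLambda (Poincare.cuspForm 1 hk hm) s -
      2 * (((2 * π * m : ℝ) : ℂ) ^ (-s) * Gamma s +
        I ^ k * (((2 * π * m : ℝ) : ℂ) ^ (-((k : ℂ) - s)) * Gamma ((k : ℂ) - s)))‖ ≤
      4 + 4 * latticeConst := by
  have ha := norm_upper_poincare_le he hm (by linarith) h2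
  have hb := norm_upper_poincare_le he hm (w := (k : ℂ) - s) (by simpa using by linarith)
    (by simp; linarith)
  rw [(centralLambda_eq_split (by omega) _ s).2]
  set A := ∫ t in Ioi (1 : ℝ), axisVal (Poincare.cuspForm 1 hk hm) t * (t : ℂ) ^ (s - 1)
  set B := ∫ t in Ioi (1 : ℝ), axisVal (Poincare.cuspForm 1 hk hm) t * (t : ℂ) ^ ((k : ℂ) - s - 1)
  calc ‖_‖ = ‖(A - 2 * (((2 * π * m : ℝ) : ℂ) ^ (-s) * Gamma s)) +
        I ^ k * (B - 2 * (((2 * π * m : ℝ) : ℂ) ^ (-((k : ℂ) - s)) * Gamma ((k : ℂ) - s)))‖ := by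
        congr 1; ring
    _ ≤ _ := by
        refine (norm_add_le _ _).trans ?_
        rw [norm_mul, norm_pow, norm_I, one_pow, one_mul]
        linarith

end FA.KohnenNonvanishing

end
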