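import Fermat.Agent.KohnenNonvanishing.Estimate
import Fermat.Agent.PeterssonTrace.Trace

/-!
# The first moment

In weight `2 j`, with `s = j + δ`: `m^j L(P_m, s) → 2 (m^(-δ) + ε m^δ)`, where `ε` is the limit of
`(-1)^j (2π)^(2δ) Γ(j - δ) / Γ(j + δ)`: `0` for `re δ > 0`, and `1` for `δ = 0` and even `j`.
-/

set_option autoImplicit false

noncomputable section

namespace FA.KohnenNonvanishing

open UpperHalfPlane hiding I
open Complex CongruenceSubgroup Filter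
open scoped MatrixGroups Real Topology Nat ComplexConjugate

theorem weight_ge {j : ℕ} (hj : 2 ≤ j) : (3 : ℤ) ≤ ((2 * j : ℕ) : ℤ) := by omega

/-- `(2π)^(-s) Γ(s)` at `s = j + δ`. -/
def gammaFactor (j : ℕ) (δ : ℂ) : ℂ :=
  ((2 * π : ℝ) : ℂ) ^ (-((j : ℂ) + δ)) * Gamma ((j : ℂ) + δ)

theorem gammaFactor_ne_zero {j : ℕ} {δ : ℂ} (h : 0 < (j : ℝ) + δ.re) : gammaFactor j δ ≠ 0 :=
  mul_ne_zero (cpow_ne_zero_iff.2 (Or.inl (ofReal_ne_zero.2 (by positivity))))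
    (Gamma_ne_zero_of_re_pos (by simpa using h))

/-- `L(f, j + δ)` for a form of weight `2 j`. -/
def centralL {j : ℕ} (f : CuspForm (Gamma0 1) ((2 * j : ℕ) : ℤ)) (δ : ℂ) : ℂ :=
  centralLambda f ((j : ℂ) + δ) / gammaFactor j δ

/-- The quotient of the two main terms at `m = 1`. -/
def signRatio (j : ℕ) (δ : ℂ) : ℂ :=
  (-1) ^ j * (((2 * π : ℝ) : ℂ) ^ (2 * δ) * (Gamma ((j : ℂ) - δ) / Gamma ((j : ℂ) + δ)))

theorem tendsto_signRatio {J : ℕ → ℕ} (hJ : Tendsto J atTop atTop) {δ : ℂ} (hδ : 0 < δ.re) :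
    Tendsto (fun i => signRatio (J i) δ) atTop (𝓝 0) := by
  have h := ((tendsto_gamma_ratio hδ).comp hJ).const_mul (((2 * π : ℝ) : ℂ) ^ (2 * δ))
  rw [mul_zero] at h
  rw [tendsto_zero_iff_norm_tendsto_zero] at h ⊢
  refine h.congr fun i => ?_
  simp [signRatio]

theorem tendsto_signRatio_central {J : ℕ → ℕ} (hJ : ∀ i, 1 ≤ J i) (he : ∀ i, Even (J i)) :
    Tendsto (fun i => signRatio (J i) 0) atTop (𝓝 1) := by
  refine Tendsto.congr (fun i => ?_) tendsto_const_nhds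
  have h : Gamma (J i : ℂ) ≠ 0 := Gamma_ne_zero_of_re_pos (by
    simpa [Nat.one_le_iff_ne_zero, pos_iff_ne_zero] using hJ i)
  simp [signRatio, (he i).neg_one_pow, h]

theorem I_pow_two_mul (j : ℕ) : I ^ (2 * j) = (-1 : ℂ) ^ j := by rw [pow_mul, I_sq]

theorem main_term_eq {j m : ℕ} (hm : m ≠ 0) {δ : ℂ} (h : 0 < (j : ℝ) + δ.re) :
    (m : ℂ) ^ j * ((2 * (((2 * π * m : ℝ) : ℂ) ^ (-((j : ℂ) + δ)) * Gamma ((j : ℂ) + δ) +
      I ^ (2 * j) * (((2 * π * m : ℝ) : ℂ) ^ (-(((2 * j : ℕ) : ℂ) - ((j : ℂ) + δ))) *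
        Gamma (((2 * j : ℕ) : ℂ) - ((j : ℂ) + δ))))) / gammaFactor j δ) =
      2 * ((m : ℂ) ^ (-δ) + signRatio j δ * (m : ℂ) ^ δ) := by
  have hπ : (0 : ℝ) ≤ 2 * π := by positivity
  have hp : ((2 * π : ℝ) : ℂ) ≠ 0 := ofReal_ne_zero.2 (by positivity)
  have hmC : (m : ℂ) ≠ 0 := Nat.cast_ne_zero.2 hm
  have hΓ : Gamma ((j : ℂ) + δ) ≠ 0 := Gamma_ne_zero_of_re_pos (by simpa using h)
  have hsplit : ∀ w : ℂ, ((2 * π * m : ℝ) : ℂ) ^ w = ((2 * π : ℝ) : ℂ) ^ w * (m : ℂ) ^ w := by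
    intro w
    rw [ofReal_mul, mul_cpow_ofReal_nonneg hπ (Nat.cast_nonneg m), ofReal_natCast]
  rw [show ((2 * j : ℕ) : ℂ) - ((j : ℂ) + δ) = j - δ by push_cast; ring, I_pow_two_mul, signRatio,
    gammaFactor, hsplit, hsplit]
  simp only [neg_sub, cpow_neg, cpow_add _ _ hp, cpow_add _ _ hmC, cpow_sub _ _ hp,
    cpow_sub _ _ hmC,
    cpow_natCast, show (2 : ℂ) * δ = δ + δ by ring]
  have h1 : ((2 * π : ℝ) : ℂ) ^ δ ≠ 0 := cpow_ne_zero_iff.2 (Or.inl hp)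
  have h2 : (m : ℂ) ^ δ ≠ 0 := cpow_ne_zero_iff.2 (Or.inl hmC)
  field_simp

theorem tendsto_centralL_poincare {J : ℕ → ℕ} (hJ : Tendsto J atTop atTop) (hJ2 : ∀ i, 2 ≤ J i)
    {δ ε : ℂ} (hε : Tendsto (fun i => signRatio (J i) δ) atTop (𝓝 ε)) {m : ℕ} (hm : m ≠ 0) :
    Tendsto (fun i => (m : ℂ) ^ J i *
        centralL (Poincare.cuspForm 1 (weight_ge (hJ2 i)) hm) δ) atTop
      (𝓝 (2 * ((m : ℂ) ^ (-δ) + ε * (m : ℂ) ^ δ))) := by
  have hmain := ((tendsto_const_nhds (x := (m : ℂ) ^ (-δ))).add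
    (hε.mul_const ((m : ℂ) ^ δ))).const_mul 2
  suffices hd : Tendsto (fun i => (m : ℂ) ^ J i *
      centralL (Poincare.cuspForm 1 (weight_ge (hJ2 i)) hm) δ -
        2 * ((m : ℂ) ^ (-δ) + signRatio (J i) δ * (m : ℂ) ^ δ)) atTop (𝓝 0) by
    simpa using hd.add hmain
  set C := 4 + 4 * latticeConst
  set c : ℝ := 2 * π * m with hc
  have herr : Tendsto (fun i => C * (2 * π) ^ δ.re * (c ^ J i / ‖Gamma ((J i : ℂ) + δ)‖)) atTop
      (𝓝 0) := by
    simpa using ((tendsto_pow_div_norm_Gamma δ c).comp hJ).const_mul (C * (2 * π) ^ δ.re)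
  refine squeeze_zero_norm' ?_ herr
  filter_upwards [hJ.eventually_ge_atTop (⌈|δ.re|⌉₊ + 5)] with i hi
  have hiR : |δ.re| + 5 ≤ (J i : ℝ) := by
    have : ((⌈|δ.re|⌉₊ : ℕ) : ℝ) + 5 ≤ J i := by exact_mod_cast hi
    linarith [Nat.le_ceil |δ.re|]
  have habs := abs_le.1 (le_refl |δ.re|)
  have hpos : 0 < (J i : ℝ) + δ.re := by linarith
  have h := norm_centralLambda_poincare_sub_le (k := 2 * J i) (even_two_mul _) hm
    (s := (J i : ℂ) + δ) (weight_ge (hJ2 i)) (by simp; linarith) (by simp; linarith)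
  have hπ : (0 : ℝ) < 2 * π := by positivity
  rw [← main_term_eq hm hpos, centralL, ← mul_sub, ← sub_div, norm_mul, norm_div, norm_pow,
    Complex.norm_natCast]
  have hg : ‖gammaFactor (J i) δ‖ =
      ‖Gamma ((J i : ℂ) + δ)‖ / ((2 * π) ^ δ.re * (2 * π) ^ J i) := by
    rw [gammaFactor, norm_mul, norm_cpow_eq_rpow_re_of_pos hπ, neg_re, add_re, natCast_re,
      Real.rpow_neg hπ.le, Real.rpow_add hπ, Real.rpow_natCast]
    field_simp
  rw [hg]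
  refine (mul_le_mul_of_nonneg_left (div_le_div_of_nonneg_right h (by positivity))
    (by positivity)).trans_eq ?_
  rw [hc, mul_pow]
  field_simp
  ring

/-- `Γ(k - 1) / (4π)^(k-1)` in weight `k`. -/
def momentConst (k : ℕ) : ℝ := (k - 2)! / (4 * π) ^ (k - 1)

theorem poincare_eq_sum {j : ℕ} (hj : 2 ≤ j) {d : ℕ}
    {e : Fin d → CuspForm (Gamma0 1) ((2 * j : ℕ) : ℤ)}
    (horth : ∀ i i', Poincare.pairing (e i) (e i') = if i = i' then 1 else 0)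
    (hspan : Submodule.span ℂ (Set.range e) = ⊤) :
    Poincare.cuspForm 1 (weight_ge hj) one_ne_zero =
      ∑ i, ((2 * momentConst (2 * j) : ℝ) * conj ((qExpansion 1 (e i)).coeff 1)) • e i := by
  conv_lhs => rw [VerticalSatoTate.pairing_expand horth hspan
    (Poincare.cuspForm 1 (weight_ge hj) one_ne_zero)]
  refine Finset.sum_congr rfl fun i _ => ?_
  rw [← Poincare.pairing_symm (e i), Poincare.pairing_poincare (weight_ge hj) one_ne_zero, map_mul,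
    conj_ofReal, momentConst]
  congr 3
  have h1 : (((2 * j : ℕ) : ℤ) : ℝ) - 1 = ((2 * j - 1 : ℕ) : ℝ) := by
    rw [Nat.cast_sub (by omega), Int.cast_natCast, Nat.cast_one]
  have h2 : Real.Gamma ((2 * j - 1 : ℕ) : ℝ) = (2 * j - 2)! := by
    rw [show 2 * j - 1 = 2 * j - 2 + 1 by omega, Nat.cast_add_one, Real.Gamma_nat_eq_factorial]
  rw [h1, h2, Real.rpow_natCast, Nat.cast_one, mul_one, one_div, inv_pow]
  ring

theorem tendsto_firstMoment {J : ℕ → ℕ} (hJ : Tendsto J atTop atTop) (hJ2 : ∀ i, 2 ≤ J i)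
    {δ ε : ℂ} (hε : Tendsto (fun i => signRatio (J i) δ) atTop (𝓝 ε)) {d : ℕ → ℕ}
    {e : ∀ i, Fin (d i) → CuspForm (Gamma0 1) ((2 * J i : ℕ) : ℤ)}
    (horth : ∀ i l l', Poincare.pairing (e i l) (e i l') = if l = l' then 1 else 0)
    (hspan : ∀ i, Submodule.span ℂ (Set.range (e i)) = ⊤) :
    Tendsto (fun i => (momentConst (2 * J i) : ℂ) *
        ∑ l, conj ((qExpansion 1 (e i l)).coeff 1) * centralL (e i l) δ) atTop (𝓝 (1 + ε)) := by
  have h := (tendsto_centralL_poincare hJ hJ2 hε one_ne_zero).div_const 2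
  rw [Nat.cast_one, one_cpow, one_cpow, mul_one, mul_div_cancel_left₀ _ (two_ne_zero' ℂ)] at h
  refine h.congr fun i => ?_
  have hk : 0 < 2 * J i := by have := hJ2 i; omega
  rw [one_pow, one_mul, poincare_eq_sum (hJ2 i) (horth i) (hspan i)]
  simp only [centralL, ← lambdaLin_apply hk, map_sum, map_smul, smul_eq_mul, Finset.mul_sum,
    Finset.sum_div]
  exact Finset.sum_congr rfl fun l _ => by push_cast; ring

end FA.KohnenNonvanishing

end
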